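import Fermat.Agent.SS.Swap.Abs
import Fermat.Agent.SS.Top35.CompatF

/-!
# SS / Swap : `Frob_q ∘ w_q = - q` on the toric part of `J₀(M q)`

`σ` a Frobenius lift at `A ∣ q`, `w = w_q` the Atkin-Lehner involution of `F_{Mq}`.  Then
`g = g_σ ∘ w` exchanges the two reductions, induces the coefficientwise `q`-Frobenius `Φ` on `Fb`,
and `Φ` exchanges the two branches of every node.  Consequence (`SS/Swap/Abs`): `σ w y = - q y` for
the toric classes `y` of `p`-power order, `p ≠ q`.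
-/

set_option autoImplicit false
set_option linter.unusedSectionVars false
set_option linter.style.haveILetI false

noncomputable section

open AlgebraicCurve ModularCurve IsLocalRing

namespace Fermat.Agent.SS

open Fermat.Agent.RED hiding Kb
open Fermat.Agent.S24
open Fermat.Agent.RED.Cusp (Fb jb)

/-! ### the two branches of a node are exchanged by `Fr` (abstract Kronecker datum) -/

section KronAbs

variable {K F k Fb : Type*} [Field K] [Field F] [Algebra K F] [Field k] [Field Fb] [Algebra k Fb]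
variable {T : TwoRed K F k Fb} {q : ℕ} (𝒦 : KronData T q)

theorem KronData.hasVal_x₂_Fr (𝒩 : NodalData T) (hP : 𝒩.P = 𝒦.Pj) (s : 𝒩.S) (v : 𝒦.Ob) (c : k)
    (hc : HasVal (𝒩.x₁ s) (v : Fb) c) : HasVal (𝒩.x₂ s) (𝒦.Fr (v : Fb)) c := by
  obtain ⟨v, n, hv⟩ := v
  have hv' : v ∈ riemannRochSpace ((n + 𝒦.n₀) • polarDiv k 𝒦.t) := by
    refine L_mono ?_ hv
    rw [add_smul]
    exact le_add_of_nonneg_right (smul_nonneg (Nat.zero_le _) (polarDiv_nonneg _))
  obtain ⟨u, hu, hred⟩ := 𝒦.lift (n + 𝒦.n₀) (Nat.le_add_left _ _) v hv'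
  have hu' : (u : F) ∈ riemannRochSpace ((n + 𝒦.n₀) • 𝒩.P + 0 • 𝒩.P') := by
    rw [zero_smul, add_zero, hP]
    exact hu
  obtain ⟨c', h1, h2⟩ := 𝒩.glue _ _ u hu' s
  rw [hred] at h1 h2
  rw [hc.unique h1]
  exact h2

theorem KronData.hasVal_x₁_Fr (𝒩 : NodalData T) (hP : 𝒩.P = 𝒦.Pj) (s : 𝒩.S) (v : 𝒦.Ob) (c : k)
    (hc : HasVal (𝒩.x₂ s) (v : Fb) c) : HasVal (𝒩.x₁ s) (𝒦.Fr (v : Fb)) c := by
  obtain ⟨v, n, hv⟩ := v
  have hv' : v ∈ riemannRochSpace ((n + 𝒦.n₀) • polarDiv k 𝒦.t) := by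
    refine L_mono ?_ hv
    rw [add_smul]
    exact le_add_of_nonneg_right (smul_nonneg (Nat.zero_le _) (polarDiv_nonneg _))
  obtain ⟨u, hu, hred⟩ := 𝒦.lift' (n + 𝒦.n₀) (Nat.le_add_left _ _) v hv'
  have hu' : (u : F) ∈ riemannRochSpace (((n + 𝒦.n₀) * q) • 𝒩.P + 0 • 𝒩.P') := by
    rw [zero_smul, add_zero, hP, mul_smul]
    exact L_mono (smul_le_smul_of_nonneg_left 𝒦.cusp (Nat.zero_le _)) hu
  obtain ⟨c', h1, h2⟩ := 𝒩.glue _ _ u hu' s
  rw [hred] at h1 h2
  rw [hc.unique h2]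
  exact h1

end KronAbs

/-! ### the coefficientwise `q`-Frobenius exchanges the branches -/

section Nodes

variable {M q : ℕ} [NeZero M] [hq : Fact q.Prime] (hqM : ¬ q ∣ M)
variable {k : Type*} [Field k] [CharP k q] [IsAlgClosed k]

/-- `Fr (Φ w) = w ^ q`, `Φ` the coefficientwise `q`-Frobenius -/
theorem FrAlg_coeffAut (τ : k ≃+* k) (hτ : ∀ c, τ c = c ^ q) (w : Fb k M) :
    FrAlg M q k (coeffAut k M τ • w) = w ^ q := by
  apply Subtype.ext
  show qExpand k q (coeffMap (τ : k →+* k) (w : LaurentSeries k)) = (w : LaurentSeries k) ^ q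
  rw [FrobK.pow_char_eq k q]
  congr 1
  refine coeffMap_congr (RingHom.ext fun c => ?_) _
  show τ c = frobenius k q c
  rw [hτ, frobenius_def]

include hqM in
/-- if evaluation at `Q` after `Fr` is evaluation at `Q'`, then the coefficientwise `q`-Frobenius
maps `Q` to `Q'` -/
theorem coeffAut_smul_place_eq_of_Fr (τ : k ≃+* k) (hτ : ∀ c, τ c = c ^ q)
    (Q Q' : Place k (Fb k M)) (hQ : polarDiv k (jb k M) Q = 0) (hQ' : polarDiv k (jb k M) Q' = 0)
    (hFr : ∀ (u : affRing k (jb k M)) (c : k), HasVal Q' (u : Fb k M) c →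
      HasVal Q (FrAlg M q k (u : Fb k M)) c) :
    coeffAut k M τ • Q = Q' := by
  have hs := sep_jb (k := k) hqM
  set Φ := coeffAut k M τ with hΦ
  have hP : Φ • polarDiv k (jb k M) = polarDiv k (jb k M) :=
    smul_polarDiv_of_smul_eq hs Φ (coeffAut_smul_jb τ)
  have hP' : Φ⁻¹ • polarDiv k (jb k M) = polarDiv k (jb k M) := by
    rw [inv_smul_eq_iff, hP]
  have hQΦ : polarDiv k (jb k M) (Φ • Q) = 0 := by
    have := SemilinearAut.divisor_smul_apply_smul Φ (polarDiv k (jb k M)) Q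
    rw [hP] at this
    rw [this, hQ]
  refine (place_eq_of_hasVal hs hQ' hQΦ ?_).symm
  rintro ⟨u, n, hu⟩ c hc
  have hw : Φ⁻¹ • u ∈ riemannRochSpace (n • polarDiv k (jb k M)) := by
    have := NodalData.ws_smul_mem_L Φ⁻¹ hu
    rwa [smul_comm, hP'] at this
  have hnQ : (n • polarDiv k (jb k M)) Q = 0 := by
    rw [Finsupp.smul_apply, hQ, smul_zero]
  obtain ⟨d, hd⟩ := exists_hasVal_of_mem_L Q hs hnQ hw
  have h1 := hd.smul_aut Φ
  rw [smul_inv_smul] at h1
  have h2 : HasVal Q (FrAlg M q k u) c := hFr ⟨u, n, hu⟩ c hc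
  have h3 : FrAlg M q k u = (Φ⁻¹ • u) ^ q := by
    rw [← FrAlg_coeffAut τ hτ (Φ⁻¹ • u), ← hΦ, smul_inv_smul]
  rw [h3] at h2
  have h4 : c = d ^ q := h2.unique (hd.pow _)
  have h5 : SemilinearAut.baseAut Φ d = d ^ q := hτ d
  rw [h5, ← h4] at h1
  exact h1

end Nodes

/-! ### abstract part: from the semi-local ring to its two localisations -/

section AbstractSwap

variable {L : Type*} [Field L] {A : ValuationSubring L} {k : Type*} [Field k] {π : A →+* k}
  {F : Type*} [Field F] [Algebra L F] {Fb : Type*} [Field Fb] [Algebra k Fb]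

/-- `g` preserves the semi-local reduction `R`, exchanges its two components and induces `φ`. -/
structure SemiRed.SwapCompat (R : SemiRed π F (Fb × Fb)) (g : SemilinearAut L F)
    (φ : SemilinearAut k Fb) : Prop where
  mem : ∀ y ∈ R.O, g • y ∈ R.O
  rd : ∀ y ∈ R.O, R.rd (g • y) = (φ • (R.rd y).2, φ • (R.rd y).1)

variable {R : SemiRed π F (Fb × Fb)} {g : SemilinearAut L F} {φ : SemilinearAut k Fb}
  (hπ : Function.Surjective π) (hS : R.HasScale) (hsurj : Function.Surjective R.red)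

theorem SemiRed.SwapCompat.mem_loc₂ (h : R.SwapCompat g φ) {y : F}
    (hy : y ∈ (R.loc₁ hπ hS hsurj).O) : g • y ∈ (R.loc₂ hπ hS hsurj).O := by
  obtain ⟨x, hx, s, hs, h1, e⟩ := (R.mem_loc₁ hπ hS hsurj).1 hy
  refine (R.mem_loc₂ hπ hS hsurj).2 ⟨g • x, h.mem x hx, g • s, h.mem s hs, ?_, ?_⟩
  · rw [h.rd s hs]
    exact semilinear_smul_ne_zero φ h1
  · rw [← semilinear_smul_mul, e]

theorem SemiRed.SwapCompat.loc₂_red (h : R.SwapCompat g φ) {y : F}
    (hy : y ∈ (R.loc₁ hπ hS hsurj).O) :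
    (R.loc₂ hπ hS hsurj).red ⟨g • y, h.mem_loc₂ hπ hS hsurj hy⟩ =
      φ • (R.loc₁ hπ hS hsurj).red ⟨y, hy⟩ := by
  obtain ⟨x, hx, s, hs, h1, e⟩ := (R.mem_loc₁ hπ hS hsurj).1 hy
  rw [R.loc₁_red hπ hS hsurj hy hx hs h1 e,
    R.loc₂_red hπ hS hsurj (h.mem_loc₂ hπ hS hsurj hy) (h.mem x hx) (h.mem s hs)
      (by rw [h.rd s hs]; exact semilinear_smul_ne_zero φ h1)
      (by rw [← semilinear_smul_mul, e]),
    h.rd s hs, h.rd x hx, semilinear_smul_div]

theorem SemiRed.SwapCompat.mem_loc₁ (h : R.SwapCompat g φ) {y : F}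
    (hy : y ∈ (R.loc₂ hπ hS hsurj).O) : g • y ∈ (R.loc₁ hπ hS hsurj).O := by
  obtain ⟨x, hx, s, hs, h1, e⟩ := (R.mem_loc₂ hπ hS hsurj).1 hy
  refine (R.mem_loc₁ hπ hS hsurj).2 ⟨g • x, h.mem x hx, g • s, h.mem s hs, ?_, ?_⟩
  · rw [h.rd s hs]
    exact semilinear_smul_ne_zero φ h1
  · rw [← semilinear_smul_mul, e]

theorem SemiRed.SwapCompat.loc₁_red (h : R.SwapCompat g φ) {y : F}
    (hy : y ∈ (R.loc₂ hπ hS hsurj).O) :
    (R.loc₁ hπ hS hsurj).red ⟨g • y, h.mem_loc₁ hπ hS hsurj hy⟩ =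
      φ • (R.loc₂ hπ hS hsurj).red ⟨y, hy⟩ := by
  obtain ⟨x, hx, s, hs, h1, e⟩ := (R.mem_loc₂ hπ hS hsurj).1 hy
  rw [R.loc₂_red hπ hS hsurj hy hx hs h1 e,
    R.loc₁_red hπ hS hsurj (h.mem_loc₁ hπ hS hsurj hy) (h.mem x hx) (h.mem s hs)
      (by rw [h.rd s hs]; exact semilinear_smul_ne_zero φ h1)
      (by rw [← semilinear_smul_mul, e]),
    h.rd s hs, h.rd x hx, semilinear_smul_div]

/-- the polar divisor of `g • f` -/
theorem smul_polarDiv_eq {K E : Type*} [Field K] [Field E] [Algebra K E] {x : E}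
    (hx : IsSepParam K x) (g : SemilinearAut K E) (f : E) :
    g • polarDiv K f = polarDiv K (g • f) := by
  ext v
  rw [SemilinearAut.divisor_smul_apply, hx.polarDiv_apply, hx.polarDiv_apply]
  have := SemilinearAut.ord_smul g (g⁻¹ • v) f
  rw [smul_inv_smul] at this
  rw [this]

end AbstractSwap

/-! ### the Atkin-Lehner involution as a semilinear automorphism -/

section SwAut

variable {M q : ℕ} [NeZero M] [hq : Fact q.Prime] (hqM : ¬ q ∣ M)

/-- `w_q` as a (linear) semilinear automorphism of `F_{Mq}`; it acts on places, divisors and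
`Pic⁰`. -/
def swAut : SemilinearAut Kb (FN (M * q)) := SemilinearAut.ofAlgAut (swEquiv hqM)

theorem swAut_smul (y : FN (M * q)) : swAut hqM • y = swAlg M q hqM y := rfl

theorem swAut_mul_self : swAut hqM * swAut hqM = 1 := by
  rw [swAut, ← map_mul]
  have : swEquiv hqM * swEquiv hqM = 1 := AlgEquiv.ext fun y => swAlg_swAlg hqM y
  rw [this, map_one]

/-- `w_q` is defined over `ℚ` -/
theorem gal_mul_swAut (σ : GQ) : gal (M * q) σ * swAut hqM = swAut hqM * gal (M * q) σ := by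
  apply Subtype.ext
  apply Prod.ext
  · exact RingEquiv.ext fun y => (swAlg_gal_smul M q hqM σ y).symm
  · show SemilinearAut.baseAut (gal (M * q) σ) * 1 = 1 * SemilinearAut.baseAut (gal (M * q) σ)
    rw [mul_one, one_mul]

include hqM in
theorem gal_smul_jF' (σ : GQ) : gal (M * q) σ • jF' M q = jF' M q := by
  rw [← swAlg_jF hqM, ← swAlg_gal_smul, gal_smul_jF]

end SwAut

/-! ### `g_σ ∘ w_q` and the two-sided Gauss datum -/

section Concrete

variable {M q : ℕ} [NeZero M] [hq : Fact q.Prime] (hqM : ¬ q ∣ M)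
variable {A : ValuationSubring Kb} {k : Type*} [Field k]
variable (π : A →+* k) [CharP k q] [IsAlgClosed k] (hπ : Function.Surjective π)

theorem RR_swapCompat {σ : GQ} {σA : A →+* A} {τ : k ≃+* k}
    (hA : ∀ a : A, ((σA a : A) : Kb) = σ (a : Kb)) (hk : ∀ a : A, τ (π a) = π (σA a)) :
    (RR hqM π hπ).SwapCompat (gal (M * q) σ * swAut hqM) (coeffAut k M τ) := by
  have hC := RR_compat hqM π hπ hA hk
  refine ⟨fun y hy => ?_, fun y hy => ?_⟩
  · rw [mul_smul, swAut_smul]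
    exact hC.mem _ (swAlg_mem hqM π hπ hy)
  · rw [mul_smul, swAut_smul, hC.rd _ (swAlg_mem hqM π hπ hy), rd_swAlg hqM π hπ hy]
    rfl

/-- **[SWAP]** general form. -/
theorem isSwap_gal {σ : GQ} {σA : A →+* A} {τ : k ≃+* k}
    (hA : ∀ a : A, ((σA a : A) : Kb) = σ (a : Kb)) (hk : ∀ a : A, τ (π a) = π (σA a))
    (𝒩 : NodalData (twoRed hqM π hπ)) (hP : 𝒩.P = polarDiv Kb (jF (M * q)))
    (hx₁ : ∀ s, coeffAut k M τ • 𝒩.x₁ s = 𝒩.x₂ s)
    (hx₂ : ∀ s, coeffAut k M τ • 𝒩.x₂ s = 𝒩.x₁ s) :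
    IsSwap 𝒩 (gal (M * q) σ * swAut hqM) (coeffAut k M τ) q := by
  have hC := RR_swapCompat hqM π hπ hA hk
  exact
    { mem₁ := fun u => hC.mem_loc₂ hπ (hasScale hqM π hπ) (red_surjective hqM π hπ) u.2
      red₁ := fun u => hC.loc₂_red hπ (hasScale hqM π hπ) (red_surjective hqM π hπ) u.2
      mem₂ := fun u => hC.mem_loc₁ hπ (hasScale hqM π hπ) (red_surjective hqM π hπ) u.2
      red₂ := fun u => hC.loc₁_red hπ (hasScale hqM π hπ) (red_surjective hqM π hπ) u.2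
      P := by
        rw [hP, smul_polarDiv_eq (RB.isSepParam_jF (M * q)), mul_smul, swAut_smul, swAlg_jF,
          gal_smul_jF' hqM]
        exact (cuspOrd M q).1
      x₁ := hx₁
      x₂ := hx₂ }

end Concrete

section Main

variable {M q : ℕ} [NeZero M] [hq : Fact q.Prime] (hqM : ¬ q ∣ M)
variable (A : ValuationSubring Kb) [CharP (ResidueField A) q] [IsAlgClosed (ResidueField A)]

theorem resAut_frob {σ : GQ} (hσ : A.IsFrobeniusAt σ q) (c : ResidueField A) :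
    resAut A σ hσ.mem_decompositionSubgroup c = c ^ q := by
  rw [resAut_apply, hσ.smul_residue_eq]

/-- **[MP-b], nodal form**: a nodal datum at the rigid level `M * q` such that `g_σ ∘ w_q`, `σ` a
Frobenius lift, exchanges the two components, fixes the nodes and exchanges their branches. -/
theorem exists_nodalData_swap (h49 : 4 ∣ M ∨ 9 ∣ M) (hA : A.LiesOverPrime q) :
    ∃ 𝒩 : NodalData (twoRed hqM (IsLocalRing.residue A) IsLocalRing.residue_surjective),
      ∀ (σ : GQ) (hσ : A.IsFrobeniusAt σ q), IsSwap 𝒩 (gal (M * q) σ * swAut hqM)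
        (coeffAut (ResidueField A) M (resAut A σ hσ.mem_decompositionSubgroup)) q := by
  obtain ⟨n₀, hl⟩ := exists_lift_twoRed hqM (IsLocalRing.residue A)
    IsLocalRing.residue_surjective h49
  set 𝒦 := kronData hqM (IsLocalRing.residue A) IsLocalRing.residue_surjective (cuspOrd M q) n₀ hl
    with h𝒦
  obtain ⟨𝒩, hP, hoff, -, -⟩ := 𝒦.exists_nodalData
    (fun π c hc0 hπ hπ' => by
      rw [twoRed_A] at hπ hπ' ⊢
      exact arch_of_liesOverPrime A hq.out hA π c hc0 hπ hπ')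
  refine ⟨𝒩, fun σ hσ => ?_⟩
  exact isSwap_gal hqM _ _ (σA := GalEq.decompHom A σ hσ.mem_decompositionSubgroup)
    (fun _ => rfl) (fun _ => rfl) 𝒩 hP
    (fun s => coeffAut_smul_place_eq_of_Fr hqM _ (resAut_frob A hσ) (𝒩.x₁ s) (𝒩.x₂ s)
      (hoff s).1 (hoff s).2 (𝒦.hasVal_x₁_Fr 𝒩 hP s))
    (fun s => coeffAut_smul_place_eq_of_Fr hqM _ (resAut_frob A hσ) (𝒩.x₂ s) (𝒩.x₁ s)
      (hoff s).2 (hoff s).1 (𝒦.hasVal_x₂_Fr 𝒩 hP s))

/-- **[MP-b]** `Frob_q ∘ w_q = - q` on the toric classes of `p`-power order. -/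
theorem frob_sw_smul_of_isToric (h49 : 4 ∣ M ∨ 9 ∣ M) (hA : A.LiesOverPrime q) {p : ℕ}
    (hp : p.Prime) (hpq : p ≠ q) (e : ℕ) {σ : GQ} (hσ : A.IsFrobeniusAt σ q)
    {y : Pic0 Kb (FN (M * q))}
    (hy : IsToric (twoRed hqM (IsLocalRing.residue A) IsLocalRing.residue_surjective) (p ^ e) y) :
    gal (M * q) σ • (swAut hqM • y) + q • y = 0 := by
  obtain ⟨𝒩, hF⟩ := exists_nodalData_swap hqM A h49 hA
  have hpk : (p : ResidueField A) ≠ 0 := by
    intro h0
    have := (CharP.cast_eq_zero_iff (ResidueField A) q p).1 h0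
    exact hpq ((Nat.prime_dvd_prime_iff_eq hq.out hp).1 this).symm
  rw [← mul_smul]
  exact smul_add_nsmul_eq_zero_of_isToric 𝒩 (RB.isSepParam_jF (M * q))
    (Cusp.isSepParam_jb M (ResidueField A) q hqM) hp hpk e (hF σ hσ) q
    (fun ζ _ => resAut_frob A hσ ζ) hy

end Main

/-! ### `w_q` preserves the toric classes -/

section Toric

variable {M q : ℕ} [NeZero M] [hq : Fact q.Prime] (hqM : ¬ q ∣ M)
variable {A : ValuationSubring Kb} {k : Type*} [Field k]
variable (π : A →+* k) [CharP k q] [IsAlgClosed k] (hπ : Function.Surjective π)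

theorem swAut_smul_mem_O (u : (twoRed hqM π hπ).O) :
    swAut hqM • (u : FN (M * q)) ∈ (twoRed hqM π hπ).O := by
  have hu : (u : FN (M * q)) ∈ (RR hqM π hπ).O := (twoRed_O hqM π hπ) ▸ u.2
  have h2 : ∀ z : FN (M * q), z ∈ (RR hqM π hπ).O → z ∈ (twoRed hqM π hπ).O := fun z hz => by
    rw [twoRed_O]; exact hz
  exact h2 _ (swAlg_mem hqM π hπ hu)

theorem twoRed_red_swAut_smul (u : (twoRed hqM π hπ).O) :
    (twoRed hqM π hπ).red ⟨swAut hqM • (u : FN (M * q)), swAut_smul_mem_O hqM π hπ u⟩ =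
      ((twoRed hqM π hπ).red u).swap := by
  have hu : (u : FN (M * q)) ∈ (RR hqM π hπ).O := (twoRed_O hqM π hπ) ▸ u.2
  rw [twoRed_red, twoRed_red]
  exact rd_swAlg hqM π hπ hu

/-- `w_q` preserves the toric classes -/
theorem isToric_swAut_smul {m : ℕ} {y : Pic0 Kb (FN (M * q))}
    (h : IsToric (twoRed hqM π hπ) m y) : IsToric (twoRed hqM π hπ) m (swAut hqM • y) := by
  obtain ⟨D, f, a₁, a₂, rfl, hord, ha₁, ha₂, hred⟩ := h
  refine ⟨SemilinearAut.degZeroSMulHom (swAut hqM) D,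
    ⟨swAut hqM • (f : FN (M * q)), swAut_smul_mem_O hqM π hπ f⟩, a₂, a₁,
    SemilinearAut.pic0_smul_mk (swAut hqM) D, fun v => ?_, ha₂, ha₁, ?_⟩
  · have h2 := SemilinearAut.ord_smul (swAut hqM) ((swAut hqM)⁻¹ • v) (f : FN (M * q))
    rw [smul_inv_smul] at h2
    rw [SemilinearAut.coe_degZeroSMulHom]
    change (m : ℤ) * (swAut hqM • (D : Divisor Kb (FN (M * q)))) v =
      v.ord (swAut hqM • (f : FN (M * q)))
    rw [h2, SemilinearAut.divisor_smul_apply, hord]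
  · rw [twoRed_red_swAut_smul, hred]
    rfl

end Toric

section Main2

variable {M q : ℕ} [NeZero M] [hq : Fact q.Prime] (hqM : ¬ q ∣ M)
variable (A : ValuationSubring Kb) [CharP (ResidueField A) q] [IsAlgClosed (ResidueField A)]

theorem swAut_smul_swAut_smul (y : Pic0 Kb (FN (M * q))) : swAut hqM • (swAut hqM • y) = y := by
  rw [← mul_smul, swAut_mul_self, one_smul]

theorem gal_smul_swAut_smul (σ : GQ) (y : Pic0 Kb (FN (M * q))) :
    gal (M * q) σ • (swAut hqM • y) = swAut hqM • (gal (M * q) σ • y) := by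
  rw [← mul_smul, gal_mul_swAut, mul_smul]

/-- **[MP-b]**, second form: `Frob_q = - q w_q` on the toric classes of `p`-power order. -/
theorem frob_smul_of_isToric (h49 : 4 ∣ M ∨ 9 ∣ M) (hA : A.LiesOverPrime q) {p : ℕ}
    (hp : p.Prime) (hpq : p ≠ q) (e : ℕ) {σ : GQ} (hσ : A.IsFrobeniusAt σ q)
    {y : Pic0 Kb (FN (M * q))}
    (hy : IsToric (twoRed hqM (IsLocalRing.residue A) IsLocalRing.residue_surjective) (p ^ e) y) :
    gal (M * q) σ • y + q • (swAut hqM • y) = 0 := by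
  have h := frob_sw_smul_of_isToric hqM A h49 hA hp hpq e hσ
    (isToric_swAut_smul hqM _ IsLocalRing.residue_surjective hy)
  rwa [swAut_smul_swAut_smul] at h

end Main2

end Fermat.Agent.SS
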