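import Fermat.Agent.SS.Abs.Main

/-!
# SS / Swap : semilinear automorphisms exchanging the two components

`g` a semilinear automorphism of `F / K` which EXCHANGES the two reductions, inducing `φ` on
`Fb / k`, and which fixes every node while exchanging its two branches (`φ • x₁ s = x₂ s`,
`φ • x₂ s = x₁ s`).  Example: `g = σ ∘ w_q`, `σ` a Frobenius lift, `w_q` the Atkin-Lehner
involution.  Then the gluing datum satisfies `ζ (g D) = φ (ζ D)⁻¹`, hence `g` acts on the toric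
classes by `- a` if `φ` acts on the roots of unity by `ζ ↦ ζ ^ a`.
-/

set_option autoImplicit false

open AlgebraicCurve

namespace Fermat.Agent.SS

open Fermat.Agent.RED Fermat.Agent.S24

variable {K F k Fb : Type*} [Field K] [Field F] [Algebra K F] [Field k] [Field Fb] [Algebra k Fb]

/-- A semilinear automorphism `g` of `F / K` exchanging the two reductions, inducing `φ` on
`Fb / k`, mapping the chart `P` into `c P`, fixing the nodes and exchanging their branches. -/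
structure IsSwap {T : TwoRed K F k Fb} (𝒩 : NodalData T) (g : SemilinearAut K F)
    (φ : SemilinearAut k Fb) (c : ℕ) : Prop where
  mem₁ : ∀ u : T.R₁.O, g • (u : F) ∈ T.R₂.O
  red₁ : ∀ u : T.R₁.O, T.R₂.red ⟨g • (u : F), mem₁ u⟩ = φ • T.R₁.red u
  mem₂ : ∀ u : T.R₂.O, g • (u : F) ∈ T.R₁.O
  red₂ : ∀ u : T.R₂.O, T.R₁.red ⟨g • (u : F), mem₂ u⟩ = φ • T.R₂.red u
  P : g • 𝒩.P ≤ c • 𝒩.P
  x₁ : ∀ s, φ • 𝒩.x₁ s = 𝒩.x₂ s
  x₂ : ∀ s, φ • 𝒩.x₂ s = 𝒩.x₁ s

namespace IsSwap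

variable {T : TwoRed K F k Fb} {𝒩 : NodalData T} {g : SemilinearAut K F}
  {φ : SemilinearAut k Fb} {c : ℕ}

theorem mem (h : IsSwap 𝒩 g φ c) (u : T.O) : g • (u : F) ∈ T.O :=
  ⟨h.mem₂ ⟨u, u.2.2⟩, h.mem₁ ⟨u, u.2.1⟩⟩

theorem red (h : IsSwap 𝒩 g φ c) (u : T.O) :
    T.red ⟨g • (u : F), h.mem u⟩ = (φ • (T.red u).2, φ • (T.red u).1) :=
  Prod.ext (h.red₂ ⟨u, u.2.2⟩) (h.red₁ ⟨u, u.2.1⟩)

end IsSwap

theorem IsOne.swap {T : TwoRed K F k Fb} {𝒩 : NodalData T} {m : ℕ} {D : Divisor K F} {f : T.O}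
    (h : IsOne T m D f) {g : SemilinearAut K F} {φ : SemilinearAut k Fb} {c : ℕ}
    (hg : IsSwap 𝒩 g φ c) : IsOne T m (g • D) ⟨g • (f : F), hg.mem f⟩ where
  deg := by rw [SemilinearAut.degree_smul, h.deg]
  ord := fun v => by
    have h2 := SemilinearAut.ord_smul g (g⁻¹ • v) (f : F)
    rw [smul_inv_smul] at h2
    change (m : ℤ) * (g • D) v = v.ord (g • (f : F))
    rw [h2, SemilinearAut.divisor_smul_apply, h.ord]
  red := by
    rw [hg.red f, h.red]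
    apply Prod.ext
    · exact smul_one φ
    · exact smul_one φ

/-- an exchanging automorphism preserves the toric classes -/
theorem IsToric.swap {T : TwoRed K F k Fb} {𝒩 : NodalData T} {m : ℕ} {y : Pic0 K F}
    (h : IsToric T m y) {g : SemilinearAut K F} {φ : SemilinearAut k Fb} {c : ℕ}
    (hg : IsSwap 𝒩 g φ c) : IsToric T m (g • y) := by
  obtain ⟨D, f, a₁, a₂, rfl, hord, ha₁, ha₂, hred⟩ := h
  refine ⟨SemilinearAut.degZeroSMulHom g D, ⟨g • (f : F), hg.mem f⟩, φ • a₂, φ • a₁,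
    SemilinearAut.pic0_smul_mk g D, fun v => ?_, ?_, ?_, ?_⟩
  · have h2 := SemilinearAut.ord_smul g (g⁻¹ • v) (f : F)
    rw [smul_inv_smul] at h2
    rw [SemilinearAut.coe_degZeroSMulHom]
    change (m : ℤ) * (g • (D : Divisor K F)) v = v.ord (g • (f : F))
    rw [h2, SemilinearAut.divisor_smul_apply, hord]
  · rwa [Ne, smul_eq_zero_iff_eq]
  · rwa [Ne, smul_eq_zero_iff_eq]
  · rw [hg.red f, hred]
    apply Prod.ext
    · exact smul_pow' φ a₂ m
    · exact smul_pow' φ a₁ m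

namespace NodalData

variable {T : TwoRed K F k Fb} (𝒩 : NodalData T) {x : F} {t : Fb}

variable [IsAlgClosed K] [IsAlgClosed k]

/-- [SWAP] the gluing datum of `g • D`, `g` exchanging the components. -/
theorem zeta_swap (hb : IsSepParam k t) {n : ℕ} (hn : 𝒩.IsLarge n) {g : SemilinearAut K F}
    {φ : SemilinearAut k Fb} {c : ℕ} (hg : IsSwap 𝒩 g φ c) {D : Divisor K F} {ζ ζ' : 𝒩.S → k}
    (h : ∀ a b : ℕ, n ≤ a + b → (𝒩.W D a b : Set (Fb × Fb)) = 𝒩.M ζ a b)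
    (h' : ∀ a b : ℕ, n ≤ a + b → (𝒩.W (g • D) a b : Set (Fb × Fb)) = 𝒩.M ζ' a b) :
    ∀ s, ζ' s * SemilinearAut.baseAut φ (ζ s) = 1 := by
  intro s
  obtain ⟨w, hw, hw0⟩ := 𝒩.exists_mem_M_ne_zero hb hn ζ (a := n) (b := 0) (le_refl _)
  have h1 : w ∈ (𝒩.W D n 0 : Set (Fb × Fb)) := by rw [h n 0 (le_refl _)]; exact hw
  obtain ⟨u, hu, rfl⟩ := h1
  have hX : g • 𝒩.X n 0 ≤ 𝒩.X (n * c + n) 0 := by
    intro v
    have e : 𝒩.X n 0 = n • 𝒩.P := by simp only [X, zero_nsmul, add_zero]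
    have e' : 𝒩.X (n * c + n) 0 = (n * c + n) • 𝒩.P := by simp only [X, zero_nsmul, add_zero]
    have hP := hg.P v
    have hP0 : 0 ≤ 𝒩.P v := 𝒩.P_nonneg v
    rw [SemilinearAut.divisor_smul_apply, Finsupp.smul_apply, nsmul_eq_mul] at hP
    rw [e, e', SemilinearAut.divisor_smul_apply, Finsupp.smul_apply, Finsupp.smul_apply,
      nsmul_eq_mul, nsmul_eq_mul]
    push_cast
    nlinarith [mul_le_mul_of_nonneg_left hP (Nat.cast_nonneg (α := ℤ) n),
      mul_nonneg (Nat.cast_nonneg (α := ℤ) n) hP0]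
  have h2 : T.red ⟨g • (u : F), hg.mem u⟩ ∈ 𝒩.M ζ' (n * c + n) 0 := by
    rw [← h' (n * c + n) 0 (by omega)]
    refine ⟨⟨g • (u : F), hg.mem u⟩, ?_, rfl⟩
    have := ws_smul_mem_L g hu
    rw [smul_add] at this
    have hle : g • D + g • 𝒩.X n 0 ≤ g • D + 𝒩.X (n * c + n) 0 := by
      intro v
      rw [Finsupp.add_apply, Finsupp.add_apply]
      exact Int.add_le_add_left (hX v) _
    exact L_mono hle this
  rw [hg.red u] at h2
  obtain ⟨c₀, hc0, hc⟩ := hw0 s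
  obtain ⟨e, he1, he2⟩ := hw.2.2 s
  obtain ⟨d, hd1, hd2⟩ := h2.2.2 s
  have hec : e = c₀ := he2.unique hc
  subst hec
  have k1 := he1.smul_aut φ
  have k2 := he2.smul_aut φ
  rw [hg.x₁ s] at k1
  rw [hg.x₂ s] at k2
  -- `d = φ (ζ s * e)`, `ζ' s * d = φ e`
  have hd : d = SemilinearAut.baseAut φ (ζ s * e) := hd2.unique k1
  have := hd1.unique k2
  rw [hd, map_mul, ← mul_assoc] at this
  exact (mul_eq_right₀ ((map_ne_zero_iff _ (SemilinearAut.baseAut φ).injective).2 hc0)).1 this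

end NodalData

section Main

variable [IsAlgClosed K] [IsAlgClosed k] {x : F} {t : Fb}
variable {T : TwoRed K F k Fb} (𝒩 : NodalData T)

/-- [Z-SWAP] an automorphism exchanging the two components, fixing the nodes and acting on the
`p ^ e`-th roots of unity of `k` by `ζ ↦ ζ ^ a`, acts on the toric classes by `- a`. -/
theorem smul_add_nsmul_eq_zero_of_isToric (hx : IsSepParam K x) (hb : IsSepParam k t) {p : ℕ}
    (hp : p.Prime) (hpk : (p : k) ≠ 0) (e : ℕ) {g : SemilinearAut K F} {φ : SemilinearAut k Fb}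
    {c : ℕ} (hg : IsSwap 𝒩 g φ c) (a : ℕ)
    (ha : ∀ ζ : k, ζ ^ p ^ e = 1 → SemilinearAut.baseAut φ ζ = ζ ^ a)
    {y : Pic0 K F} (hy : IsToric T (p ^ e) y) : g • y + a • y = 0 := by
  have hm : p ^ e ≠ 0 := pow_ne_zero _ hp.ne_zero
  obtain ⟨D, f, rfl, h⟩ := hy.exists_isOne hx
  obtain ⟨n, hn⟩ := 𝒩.exists_isLarge hx hb
  obtain ⟨ζ, hζ, hW⟩ := 𝒩.exists_zeta hx hb hn hm h
  -- `g • D`
  have hgD := h.swap hg
  obtain ⟨ζg, -, hWg⟩ := 𝒩.exists_zeta hx hb hn hm hgD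
  have hζg : ∀ s, ζg s * ζ s ^ a = 1 := fun s => by
    rw [← ha _ (hζ s)]
    exact 𝒩.zeta_swap hb hn hg hW hWg s
  -- `a • D`
  have hWa := W_nsmul 𝒩 hx hb hn hm h hW a
  -- the sum
  have hE := hgD.add (h.nsmul a)
  obtain ⟨ζE, -, hWE⟩ := 𝒩.exists_zeta hx hb hn hm hE
  have h1 : ζE = ζg * ζ ^ a := 𝒩.zeta_add hb hn hWg hWa hWE
  have hζE : ζE = 1 := by
    funext s
    rw [h1, Pi.mul_apply, Pi.pow_apply, hζg s, Pi.one_apply]
  rw [hζE] at hWE
  have hprin := 𝒩.isPrincipal_of_prime_pow hx hb hn hp hpk e hE hWE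
  rw [SemilinearAut.pic0_smul_mk, ← pic0_mk_nsmul]
  have h0 : (0 : Pic0 K F) = Pic0.mk 0 := rfl
  have hadd : Pic0.mk (SemilinearAut.degZeroSMulHom g D) + Pic0.mk (a • D) =
      Pic0.mk (SemilinearAut.degZeroSMulHom g D + a • D) := rfl
  rw [hadd, h0]
  apply pic0_mk_eq_mk_of_isPrincipal
  have h3 : ((SemilinearAut.degZeroSMulHom g D + a • D : Divisor.degZero (K := K) (F := F)) :
      Divisor K F) - ((0 : Divisor.degZero (K := K) (F := F)) : Divisor K F)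
      = g • (D : Divisor K F) + a • (D : Divisor K F) := by
    rw [AddSubgroup.coe_add, SemilinearAut.coe_degZeroSMulHom, AddSubgroup.coe_zero, sub_zero]
    rfl
  rw [h3]
  exact hprin

end Main

end Fermat.Agent.SS
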